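import Fermat.Agent.S25.ZAR.H4770.LocRestr

/-!
# Invertible sheaves in sections form: local generators, `End = Γ(𝒪)` (helper4770)
-/

set_option autoImplicit false

open CategoryTheory Limits AlgebraicGeometry TopologicalSpace Opposite

universe u

namespace Fermat.Agent.S25.ZAR.H4770

variable {X : Scheme.{u}}

/-- The unit sheaf of modules on `X`. -/
noncomputable abbrev OO (X : Scheme.{u}) : X.Modules := SheafOfModules.unit X.ringCatSheaf

/-- Identity cast from sections of the unit sheaf of modules to sections of the structure sheaf. -/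
noncomputable def unitToO (V : X.Opens) (x : Γ(OO X, V)) : Γ(X, V) := x

/-- Identity cast from sections of the structure sheaf to sections of the unit sheaf of modules. -/
noncomputable def oToUnit (V : X.Opens) (r : Γ(X, V)) : Γ(OO X, V) := r

section unitcasts

@[simp] lemma unitToO_oToUnit (V : X.Opens) (r : Γ(X, V)) : unitToO V (oToUnit V r) = r := rfl
@[simp] lemma oToUnit_unitToO (V : X.Opens) (x : Γ(OO X, V)) : oToUnit V (unitToO V x) = x := rfl
lemma oToUnit_add (V : X.Opens) (r r' : Γ(X, V)) :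
    oToUnit V (r + r') = oToUnit V r + oToUnit V r' := rfl
lemma oToUnit_mul (V : X.Opens) (r r' : Γ(X, V)) : oToUnit V (r * r') = r • oToUnit V r' := rfl
lemma oToUnit_res {U V : X.Opens} (h : V ≤ U) (r : Γ(X, U)) :
    res (OO X) h (oToUnit U r) = oToUnit V (resO h r) := rfl
lemma unitToO_add (V : X.Opens) (r r' : Γ(OO X, V)) :
    unitToO V (r + r') = unitToO V r + unitToO V r' := rfl
lemma unitToO_smul (V : X.Opens) (r : Γ(X, V)) (x : Γ(OO X, V)) :
    unitToO V (r • x) = r * unitToO V x := rfl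
lemma unitToO_res {U V : X.Opens} (h : V ≤ U) (x : Γ(OO X, U)) :
    unitToO V (res (OO X) h x) = resO h (unitToO U x) := rfl

/-- Sections of the structure sheaf are determined locally. -/
lemma secO_ext {ι : Type*} (V : X.Opens) (U : ι → X.Opens) (hU : ∀ i, U i ≤ V)
    (hcov : V ≤ ⨆ i, U i) (r r' : Γ(X, V)) (h : ∀ i, resO (hU i) r = resO (hU i) r') : r = r' :=
  sec_ext (OO X) V U hU hcov (oToUnit V r) (oToUnit V r') h

/-- Sections of the structure sheaf glue. -/
lemma secO_glue {ι : Type*} (V : X.Opens) (U : ι → X.Opens) (hU : ∀ i, U i ≤ V)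
    (hcov : V ≤ ⨆ i, U i) (rf : ∀ i, Γ(X, U i))
    (hrf : ∀ i j, resO (inf_le_left : U i ⊓ U j ≤ U i) (rf i) =
      resO (inf_le_right : U i ⊓ U j ≤ U j) (rf j)) :
    ∃! r : Γ(X, V), ∀ i, resO (hU i) r = rf i :=
  sec_glue (OO X) V U hU hcov (fun i => oToUnit (U i) (rf i)) hrf

end unitcasts

/-- `s` generates `L` over `U`: `r ↦ r • s|_V` is bijective for every `V ≤ U`. -/
def IsGen (L : X.Modules) (U : X.Opens) (s : Γ(L, U)) : Prop :=
  ∀ (V : X.Opens) (h : V ≤ U), Function.Bijective (fun r : Γ(X, V) => r • res L h s)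

/-- Invertibility in sections form: local generators exist. -/
def LocInv (L : X.Modules) : Prop :=
  ∀ x : X, ∃ U : X.Opens, x ∈ U ∧ ∃ s : Γ(L, U), IsGen L U s

lemma IsGen.restrict {L : X.Modules} {U : X.Opens} {s : Γ(L, U)} (hs : IsGen L U s)
    {U' : X.Opens} (h : U' ≤ U) : IsGen L U' (res L h s) := by
  intro V hV
  have := hs V (hV.trans h)
  simpa only [res_res] using this

/-- The local morphism `𝒪|_U ⟶ L|_U` attached to a section of `L` over `U`. -/
noncomputable def secHom (L : X.Modules) {U : X.Opens} (s : Γ(L, U)) : LocHom (OO X) L U where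
  app V h x := unitToO V x • res L h s
  map_add V h x y := by rw [unitToO_add, add_smul]
  map_smul V h r x := by rw [unitToO_smul, mul_smul]
  map_res V V' h h' x := by rw [unitToO_res, res_smul, res_res]

@[simp] lemma secHom_app (L : X.Modules) {U : X.Opens} (s : Γ(L, U)) (V : X.Opens) (h : V ≤ U)
    (x : Γ(OO X, V)) : (secHom L s).app V h x = unitToO V x • res L h s := rfl

lemma isIso_secHom_iff (L : X.Modules) {U : X.Opens} (s : Γ(L, U)) :
    (secHom L s).IsIso ↔ IsGen L U s := Iff.rfl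

/-- A local isomorphism `𝒪|_U ≅ L|_U` gives a generator. -/
lemma isGen_of_locIso (L : X.Modules) {U : X.Opens} (φ : LocHom (OO X) L U) (hφ : φ.IsIso) :
    IsGen L U (φ.app U le_rfl (oToUnit U 1)) := by
  intro V h
  have key : (fun r : Γ(X, V) => r • res L h (φ.app U le_rfl (oToUnit U 1))) =
      fun r => φ.app V h (oToUnit V r) := by
    funext r
    rw [← φ.map_res U V le_rfl h, ← φ.map_smul, oToUnit_res, resO_one, ← oToUnit_mul, mul_one]
  rw [key]
  exact hφ V h

/-- The Prelude notion of invertibility implies the sections form. -/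
lemma locInv_of_isInvertible {L : X.Modules} (hL : Scheme.Modules.IsInvertible L) : LocInv L := by
  intro x
  obtain ⟨U, hxU, ⟨e⟩⟩ := hL.exists_trivialization x
  let e' : (Scheme.Modules.pullback U.ι).obj (OO X) ≅ (Scheme.Modules.pullback U.ι).obj L :=
    Scheme.Modules.pullbackUnitIso U.ι ≪≫ e.symm
  have hUle : U ≤ U.ι.opensRange := le_of_eq (Scheme.Opens.opensRange_ι U).symm
  let φ : LocHom (OO X) L U := (LocHom.ofPullbackIso U.ι e').restrict hUle
  have hφ : φ.IsIso := (LocHom.isIso_ofPullbackIso U.ι e').restrict hUle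
  exact ⟨U, hxU, _, isGen_of_locIso L φ hφ⟩

/-- The sections form of invertibility implies the Prelude notion. -/
lemma isInvertible_of_locInv {L : X.Modules} (hL : LocInv L) : Scheme.Modules.IsInvertible L := by
  refine ⟨fun x => ?_⟩
  obtain ⟨U, hxU, s, hs⟩ := hL x
  have hUle : U.ι.opensRange ≤ U := le_of_eq (Scheme.Opens.opensRange_ι U)
  let φ : LocHom (OO X) L U.ι.opensRange := (secHom L s).restrict hUle
  have hφ : φ.IsIso := LocHom.IsIso.restrict ((isIso_secHom_iff L s).mpr hs) hUle
  exact ⟨U, hxU, ⟨(LocHom.toPullbackIso U.ι φ hφ).symm ≪≫ Scheme.Modules.pullbackUnitIso U.ι⟩⟩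


/-- Endomorphisms of an invertible sheaf are multiplications by sections of `𝒪`. -/
theorem exists_unique_smul_of_end {L : X.Modules} (hL : LocInv L) {U : X.Opens}
    (ψ : LocHom L L U) :
    ∃! u : Γ(X, U), ∀ (V : X.Opens) (h : V ≤ U) (t : Γ(L, V)), ψ.app V h t = resO h u • t := by
  choose Ux hxU sx hsx using hL
  let W : U → X.Opens := fun x => U ⊓ Ux x.1
  have hW : ∀ x, W x ≤ U := fun x => inf_le_left
  have hcov : U ≤ ⨆ x, W x := by
    intro y hy
    exact Opens.mem_iSup.mpr ⟨⟨y, hy⟩, ⟨hy, hxU y⟩⟩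
  let g : ∀ x : U, Γ(L, W x) := fun x => res L inf_le_right (sx x.1)
  have hg : ∀ x, IsGen L (W x) (g x) := fun x => (hsx x.1).restrict _
  have hux : ∀ x : U, ∃ ux : Γ(X, W x), ψ.app (W x) (hW x) (g x) = ux • g x := by
    intro x
    obtain ⟨r, hr⟩ := (hg x (W x) le_rfl).2 (ψ.app (W x) (hW x) (g x))
    exact ⟨r, by simpa using hr.symm⟩
  choose ux hux using hux
  have claimA : ∀ (x : U) (V : X.Opens) (hV : V ≤ W x) (t : Γ(L, V)),
      ψ.app V (hV.trans (hW x)) t = resO hV (ux x) • t := by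
    intro x V hV t
    obtain ⟨r, rfl⟩ := (hg x V hV).2 t
    show ψ.app V _ (r • res L hV (g x)) = resO hV (ux x) • (r • res L hV (g x))
    rw [ψ.map_smul, ψ.map_res (W x) V (hW x) hV, hux, res_smul, smul_smul, smul_smul, mul_comm]
  have hcompat : ∀ x y : U, resO (inf_le_left : W x ⊓ W y ≤ W x) (ux x) =
      resO (inf_le_right : W x ⊓ W y ≤ W y) (ux y) := by
    intro x y
    have h1 := claimA x (W x ⊓ W y) inf_le_left (res L inf_le_left (g x))
    have h2 := claimA y (W x ⊓ W y) inf_le_right (res L inf_le_left (g x))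
    exact (hg x (W x ⊓ W y) inf_le_left).1 (h1.symm.trans h2)
  obtain ⟨u, hu, huniq⟩ := secO_glue U W hW hcov ux hcompat
  refine ⟨u, ?_, ?_⟩
  · intro V h t
    refine sec_ext L V (fun x => V ⊓ W x) (fun _ => inf_le_left)
      (LocHom.le_iSup_inf W h hcov) _ _ ?_
    intro x
    rw [← ψ.map_res V (V ⊓ W x) h inf_le_left, claimA x (V ⊓ W x) inf_le_right, res_smul,
      ← hu x, resO_resO, resO_resO]
  · intro u' hu'
    apply huniq
    intro x
    have h1 := hu' (W x) (hW x) (g x)
    rw [hux] at h1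
    exact ((hg x (W x) le_rfl).1 (by simpa using h1)).symm

/-- Two local isomorphisms between invertible sheaves differ by a section of `𝒪`. -/
theorem LocHom.exists_smul_of_isIso {L L' : X.Modules} (hL : LocInv L) {U : X.Opens}
    (φ φ' : LocHom L L' U) (hφ : φ.IsIso) :
    ∃ u : Γ(X, U), ∀ (V : X.Opens) (h : V ≤ U) (t : Γ(L, V)),
      φ'.app V h t = resO h u • φ.app V h t := by
  obtain ⟨u, hu, -⟩ := exists_unique_smul_of_end hL (φ'.comp (φ.inv hφ))
  refine ⟨u, fun V h t => ?_⟩
  have h1 := hu V h t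
  rw [LocHom.comp_app] at h1
  have h2 := congrArg (φ.app V h) h1
  rw [LocHom.app_inv_app, φ.map_smul] at h2
  exact h2

end Fermat.Agent.S25.ZAR.H4770
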